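import Fermat.Agent.Subspace.UnitEquation
import Mathlib.Data.Nat.Digits.Lemmas

/-!
# Sparse expansions in two bases

An equality of two short sums of powers of multiplicatively independent bases is a vanishing sum of
`S`-units; each minimal vanishing part meets both sides, which bounds the exponents.
-/

set_option autoImplicit false

noncomputable section

namespace FA.SengeStraus

open Finset FA.Subspace

/-- The number of nonzero digits. -/
def nonzeroDigits (b n : ℕ) : ℕ := ((Nat.digits b n).filter (· ≠ 0)).length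

/-- Multiplicative independence. -/
def Indep (a b : ℕ) : Prop := ∀ i j : ℕ, a ^ i = b ^ j → i = 0 ∧ j = 0

theorem Indep.symm {a b : ℕ} (h : Indep a b) : Indep b a :=
  fun i j e => (h j i e.symm).symm

/-- The ratio of a power of `b` to a power of `a` determines both exponents. -/
theorem ratio_injective {a b : ℕ} (ha : 0 < a) (hb : 0 < b) (h : Indep a b) :
    Function.Injective fun p : ℕ × ℕ => (b : ℚ) ^ p.2 / (a : ℚ) ^ p.1 := by
  rintro ⟨e, f⟩ ⟨e', f'⟩ he
  have ha' : ∀ t : ℕ, (a : ℚ) ^ t ≠ 0 := fun t => pow_ne_zero _ (by exact_mod_cast ha.ne')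
  simp only [div_eq_div_iff (ha' _) (ha' _)] at he
  have hn : b ^ f * a ^ e' = b ^ f' * a ^ e := by exact_mod_cast he
  clear he
  have key : ∀ {e e' f f' : ℕ}, b ^ f * a ^ e' = b ^ f' * a ^ e → f' ≤ f → e = e' ∧ f = f' := by
    intro e e' f f' hn hf
    obtain ⟨d, rfl⟩ := Nat.exists_eq_add_of_le hf
    rw [pow_add, mul_assoc] at hn
    have hn' := Nat.eq_of_mul_eq_mul_left (pow_pos hb f') hn
    rcases le_total e' e with he | he
    · obtain ⟨c, rfl⟩ := Nat.exists_eq_add_of_le he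
      rw [pow_add, mul_comm (a ^ e')] at hn'
      have := h c d (Nat.eq_of_mul_eq_mul_right (pow_pos ha e') hn').symm
      omega
    · obtain ⟨c, rfl⟩ := Nat.exists_eq_add_of_le he
      rw [pow_add, mul_left_comm] at hn'
      have h1 : b ^ d * a ^ c = 1 :=
        Nat.eq_of_mul_eq_mul_left (pow_pos ha e) (hn'.trans (mul_one _).symm)
      have h2 := h c 0 (by rw [Nat.eq_one_of_mul_eq_one_left h1, pow_zero])
      have h3 := h 0 d (by rw [Nat.eq_one_of_mul_eq_one_right h1, pow_zero])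
      omega
  rcases le_total f' f with hf | hf
  · obtain ⟨rfl, rfl⟩ := key hn hf
    rfl
  · obtain ⟨rfl, rfl⟩ := key hn.symm hf
    rfl

/-- Every term of a vanishing sum of `S`-units without one-sided vanishing parts has a partner on
the other side, with finitely many possible ratios. -/
theorem exists_finite_ratios (S : Finset ℕ) (k l : ℕ) :
    ∃ R : Set ℚ, R.Finite ∧ ∀ z : Fin k ⊕ Fin l → ℚ, (∀ p, IsSUnitQ S (z p)) → ∑ p, z p = 0 →
      (∀ T : Finset (Fin k), T.Nonempty → ∑ i ∈ T, z (Sum.inl i) ≠ 0) →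
      ∀ i, ∃ j, z (Sum.inr j) / z (Sum.inl i) ∈ R := by
  classical
  refine ⟨⋃ T : Finset (Fin k ⊕ Fin l), ⋃ p : T, ⋃ q : T,
    (fun w : T → ℚ => w q) '' unitSums S p, ?_, fun z hz hsum hl i => ?_⟩
  · exact Set.finite_iUnion fun T => Set.finite_iUnion fun p => Set.finite_iUnion fun q =>
      (finite_unitSums _ S rfl p).image _
  obtain ⟨T, hT, hmin⟩ := ((univ : Finset (Fin k ⊕ Fin l)).powerset.filter
    fun T => Sum.inl i ∈ T ∧ ∑ p ∈ T, z p = 0).exists_min_image Finset.card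
    ⟨univ, by simp [hsum]⟩
  simp only [mem_filter, mem_powerset, subset_univ, true_and] at hT hmin
  obtain ⟨hiT, hT0⟩ := hT
  have hfull : ∀ W ⊆ T, W.Nonempty → ∑ p ∈ W, z p = 0 → W = T := fun W hWT hW hW0 => by
    by_contra hne
    by_cases hiW : Sum.inl i ∈ W
    · exact hne (eq_of_subset_of_card_le hWT (hmin W ⟨hiW, hW0⟩))
    · have h2 : ∑ p ∈ T \ W, z p = 0 := by
        have := sum_sdiff hWT (f := z)
        rw [hT0, hW0, add_zero] at this
        exact this
      have := hmin (T \ W) ⟨mem_sdiff.2 ⟨hiT, hiW⟩, h2⟩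
      rw [card_sdiff_of_subset hWT] at this
      have := card_le_card hWT
      have := hW.card_pos
      omega
  obtain ⟨j, hjT⟩ : ∃ j, Sum.inr j ∈ T := by
    by_contra hno
    push Not at hno
    have e : T = (univ.filter fun i => Sum.inl i ∈ T).map ⟨Sum.inl, Sum.inl_injective⟩ := by
      ext (p | p)
      · simp
      · simp [hno p]
    refine hl (univ.filter fun i => Sum.inl i ∈ T) ⟨i, by simp [hiT]⟩ ?_
    rw [e, sum_map] at hT0
    exact hT0
  refine ⟨j, Set.mem_iUnion.2 ⟨T, Set.mem_iUnion.2 ⟨⟨_, hiT⟩, Set.mem_iUnion.2 ⟨⟨_, hjT⟩,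
    fun p => z p / z (Sum.inl i), ⟨fun p => (hz p).div (hz _), ?_, fun W hW hW0 => ?_,
    div_self (hz _).1⟩, rfl⟩⟩⟩⟩
  · rw [← sum_div, Finset.sum_coe_sort T z, hT0, zero_div]
  · rw [← sum_div, div_eq_zero_iff, or_iff_left (hz _).1] at hW0
    have e := hfull (W.map (Function.Embedding.subtype _))
      (fun p hp => by obtain ⟨q, -, rfl⟩ := mem_map.1 hp; exact q.2) (hW.map)
      (by rw [sum_map]; exact hW0)
    refine eq_univ_iff_forall.2 fun p => ?_
    obtain ⟨q, hq, hqp⟩ := mem_map.1 (e.ge p.2)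
    rwa [← Subtype.ext hqp]

/-- **Short equal sums of powers of two independent bases take finitely many values.** -/
theorem finite_sparse {a b : ℕ} (ha : 0 < a) (hb : 0 < b) (h : Indep a b) (k l : ℕ)
    (C D : Finset ℚ) (hC : ∀ x ∈ C, x ≠ 0) (hD : ∀ x ∈ D, x ≠ 0) :
    {x : ℚ | ∃ (c : Fin k → ℚ) (e : Fin k → ℕ) (d : Fin l → ℚ) (f : Fin l → ℕ),
      (∀ i, c i ∈ C) ∧ (∀ j, d j ∈ D) ∧
      (∀ T : Finset (Fin k), T.Nonempty → ∑ i ∈ T, c i * (a : ℚ) ^ e i ≠ 0) ∧
      x = ∑ i, c i * (a : ℚ) ^ e i ∧ x = ∑ j, d j * (b : ℚ) ^ f j}.Finite := by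
  classical
  set S := (a.primeFactors ∪ b.primeFactors) ∪ (C ∪ D).biUnion primesOf
  have hpow : ∀ {m : ℕ}, 0 < m → m.primeFactors ⊆ S → ∀ t : ℕ, IsSUnitQ S ((m : ℚ) ^ t) :=
    fun {m} hm hmS t => by
      have hm' : IsSUnitQ S (m : ℚ) := isSUnitQ_of_primesOf (by exact_mod_cast hm.ne')
        (by simpa [primesOf] using hmS)
      induction t with
      | zero => exact ⟨by simp, fun p _ _ => by simp⟩
      | succ t ih => rw [pow_succ]; exact ih.mul hm'
  have hcoef : ∀ x ∈ C ∪ D, x ≠ 0 → IsSUnitQ S x := fun x hx hx0 =>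
    isSUnitQ_of_primesOf hx0 fun p hp => mem_union_right _ (mem_biUnion.2 ⟨x, hx, hp⟩)
  obtain ⟨R, hR, hRz⟩ := exists_finite_ratios S k l
  let R' : Set ℚ := ⋃ c ∈ C, ⋃ d ∈ D, (fun r => r * c / (-d)) '' R
  have hR' : R'.Finite :=
    C.finite_toSet.biUnion fun c _ => D.finite_toSet.biUnion fun d _ => hR.image _
  obtain ⟨E, hE⟩ := ((hR'.preimage (ratio_injective ha hb h).injOn).image Prod.fst).bddAbove
  let G := Fintype.piFinset fun _ : Fin k => C ×ˢ range (E + 1)
  refine (G.image fun w => ∑ i, (w i).1 * (a : ℚ) ^ (w i).2).finite_toSet.subset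
    fun x ⟨c, e, d, f, hc, hd, hne, hx, hx'⟩ => ?_
  have hdj : ∀ j, IsSUnitQ S (-d j * (b : ℚ) ^ f j) := fun j => by
    have hdu := hcoef _ (mem_union_right _ (hd j)) (hD _ (hd j))
    refine (show IsSUnitQ S (-d j) from ⟨neg_ne_zero.2 hdu.1, fun p hp hpS => ?_⟩).mul
      (hpow hb (subset_union_right.trans subset_union_left) _)
    rw [padicValRat.neg]
    exact hdu.2 p hp hpS
  have hbd : ∀ i, e i ≤ E := fun i => by
    obtain ⟨j, hj⟩ := hRz (Sum.elim (fun i => c i * (a : ℚ) ^ e i) fun j => -d j * (b : ℚ) ^ f j)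
      (Sum.forall.2 ⟨fun i => (hcoef _ (mem_union_left _ (hc i)) (hC _ (hc i))).mul
          (hpow ha (subset_union_left.trans subset_union_left) _), hdj⟩)
      (by simp [← hx, ← hx']) hne i
    refine hE ⟨(e i, f j), ?_, rfl⟩
    refine Set.mem_biUnion (hc i) (Set.mem_biUnion (hd j) ⟨_, hj, ?_⟩)
    have := hC _ (hc i)
    have := hD _ (hd j)
    have : (a : ℚ) ^ e i ≠ 0 := pow_ne_zero _ (by exact_mod_cast ha.ne')
    simp only [Sum.elim_inl, Sum.elim_inr]
    field_simp
  refine mem_coe.2 (mem_image.2 ⟨fun i => (c i, e i), Fintype.mem_piFinset.2 fun i => ?_, hx.symm⟩)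
  exact mem_product.2 ⟨hc i, mem_range.2 (by have := hbd i; omega)⟩

/-- The expansion without the zero digits. -/
theorem exists_sparse {b : ℕ} (hb : 1 < b) (n : ℕ) :
    ∃ L : List (ℕ × ℕ), L.length = nonzeroDigits b n ∧ (∀ p ∈ L, 1 ≤ p.1 ∧ p.1 < b) ∧
      (L.map fun p => p.1 * b ^ p.2).sum = n := by
  induction n using Nat.strong_induction_on with
  | _ n ih =>
    rcases n.eq_zero_or_pos with rfl | hn
    · exact ⟨[], by simp [nonzeroDigits]⟩
    obtain ⟨L, hlen, hd, hsum⟩ := ih (n / b) (Nat.div_lt_self hn hb)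
    have e : ((L.map fun p => (p.1, p.2 + 1)).map fun p => p.1 * b ^ p.2).sum = b * (n / b) := by
      rw [← hsum, ← List.sum_map_mul_left, List.map_map]
      congr 1
      exact List.map_congr_left fun p _ => by simp [pow_succ]; ring
    have hd' : ∀ p ∈ L.map fun p => (p.1, p.2 + 1), 1 ≤ p.1 ∧ p.1 < b := fun p hp => by
      obtain ⟨q, hq, rfl⟩ := List.mem_map.1 hp
      exact hd q hq
    by_cases h0 : n % b = 0
    · refine ⟨_, ?_, hd', e.trans ?_⟩
      · simp [nonzeroDigits, Nat.digits_def' hb hn, h0, hlen]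
      · have := Nat.mod_add_div n b
        omega
    · refine ⟨(n % b, 0) :: L.map fun p => (p.1, p.2 + 1), ?_, fun p hp => ?_, ?_⟩
      · simp [nonzeroDigits, Nat.digits_def' hb hn, h0, hlen]
      · rcases List.mem_cons.1 hp with rfl | hp
        · exact ⟨Nat.pos_of_ne_zero h0, Nat.mod_lt _ (by omega)⟩
        · exact hd' p hp
      · rw [List.map_cons, List.sum_cons, e, pow_zero, mul_one, Nat.mod_add_div]

/-- **Senge–Straus.** -/
theorem finite_few_digits {a b : ℕ} (ha : 1 < a) (hb : 1 < b) (h : Indep a b) (k : ℕ) :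
    {n : ℕ | nonzeroDigits a n ≤ k ∧ nonzeroDigits b n ≤ k}.Finite := by
  classical
  let C : ℕ → Finset ℚ := fun m => (Finset.Ico 1 m).image fun c : ℕ => (c : ℚ)
  have hC : ∀ m, ∀ x ∈ C m, x ≠ 0 := fun m x hx => by
    obtain ⟨c, hc, rfl⟩ := mem_image.1 hx
    exact_mod_cast (by have := (mem_Ico.1 hc).1; omega : c ≠ 0)
  have hfin : (⋃ i : Fin (k + 1), ⋃ j : Fin (k + 1), _).Finite := Set.finite_iUnion fun i =>
    Set.finite_iUnion fun j =>
      finite_sparse (by omega) (by omega) h (i : ℕ) (j : ℕ) (C a) (C b) (hC a) (hC b)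
  refine (hfin.preimage (f := fun n : ℕ => (n : ℚ)) Nat.cast_injective.injOn).subset
    fun n ⟨hna, hnb⟩ => ?_
  obtain ⟨L, hL, hLd, hLs⟩ := exists_sparse ha n
  obtain ⟨M, hM, hMd, hMs⟩ := exists_sparse hb n
  have conv : ∀ (m : ℕ) (L : List (ℕ × ℕ)), (L.map fun p => p.1 * m ^ p.2).sum = n →
      ∑ i : Fin L.length, ((L.get i).1 : ℚ) * (m : ℚ) ^ (L.get i).2 = n := fun m L e => by
    rw [← e, ← List.sum_ofFn]
    push_cast
    rw [List.map_map]
    congr 1
    conv_rhs => rw [← List.ofFn_get L, List.map_ofFn]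
    congr 1
    funext i
    simp
  refine Set.mem_iUnion.2 ⟨⟨L.length, by omega⟩, Set.mem_iUnion.2 ⟨⟨M.length, by omega⟩,
    fun i => ((L.get i).1 : ℚ), fun i => (L.get i).2, fun j => ((M.get j).1 : ℚ),
    fun j => (M.get j).2, fun i => mem_image_of_mem _ (mem_Ico.2 (hLd _ (L.get_mem i))),
    fun j => mem_image_of_mem _ (mem_Ico.2 (hMd _ (M.get_mem j))), fun T hT => ?_,
    (conv a L hLs).symm, (conv b M hMs).symm⟩⟩
  refine (sum_pos (fun i _ => mul_pos ?_ (pow_pos (by positivity) _)) hT).ne'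
  exact Nat.cast_pos.2 (hLd _ (L.get_mem i)).1

theorem nonzeroDigits_le_sum (b n : ℕ) : nonzeroDigits b n ≤ (Nat.digits b n).sum := by
  rw [nonzeroDigits]
  induction Nat.digits b n with
  | nil => simp
  | cons d L ih =>
    by_cases hd : d = 0
    · simpa [hd] using ih
    · simp [hd]
      simp at ih
      omega

theorem nonzeroDigits_pow {a : ℕ} (ha : 1 < a) (t : ℕ) : nonzeroDigits a (a ^ t) = 1 := by
  induction t with
  | zero => simp [nonzeroDigits, Nat.digits_of_lt a 1 one_ne_zero ha]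
  | succ t ih =>
    rw [nonzeroDigits, Nat.digits_def' ha (pow_pos (by omega) _), pow_succ, Nat.mul_mod_left,
      Nat.mul_div_cancel _ (by omega)]
    simpa [nonzeroDigits] using ih

end FA.SengeStraus

end
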